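import Fermat.Agent.CFT.F.Defs
import Fermat.Agent.CFT.Br.Kummer
import Fermat.Agent.CFT.Br.Cyc

/-!
# CFT / T / Codim : the formal part of (I1).

`D` any datum, all local groups act on a field `Ω` as Galois groups, `ζ ∈ Ω` a primitive `p`-th root of
unity fixed by all local groups, `χ` a character of the global group.
(H1) every local class is cyclic `(χ_v, y_v)`;
(H2) modulo one element `a₀` every family `(y_v)` is, up to local `p`-th powers, the inverse of an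
element `u` such that `(χ,u)` is (locally everywhere) the restriction of a global `μ_p`-cocycle.
Then the image of `H^2(G,F_p) → ∏ H^2(G_v,F_p)` has codimension `≤ 1`.
-/

set_option autoImplicit false

namespace Fermat.Agent.CFT.Codim

open Fermat.Agent.CFT Fermat.Agent.CFT.Br

theorem chiRep_one {k : Type} [CommRing k] {G : Type} [Group G] :
    chiRep (1 : G →* kˣ) = (1 : Representation k G k) := by
  ext g
  simp [chiRep]

theorem codim_formal (D : Datum) {p : ℕ} [Fact p.Prime] {Ω : Type} [Field Ω]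
    [∀ v, MulSemiringAction (D.Gv v) Ω]
    (hgal : ∀ v, IsGalAct Ω (D.levv v)) (hroot : ∀ x : Ωˣ, ∃ y, y ^ p = x)
    {ζ : Ωˣ} (hζ : IsPrimitiveRoot ζ p) (hfix : ∀ v, ζ ∈ fixU (D.Gv v) Ω)
    (χ : D.G →* Multiplicative (ZMod p))
    (hχ : ∀ v, IsSmoothChar (D.levv v) (χ.comp (D.r v)))
    (H1 : ∀ v, ∀ c ∈ Z2 (D.levv v) (1 : Representation (ZMod p) (D.Gv v) (ZMod p)),
      ∃ y ∈ fixU (D.Gv v) Ω, muEmb ζ ∘ c - cyc (χ.comp (D.r v)) (Additive.ofMul y)
        ∈ B2 (D.levv v) (uRep (D.Gv v) Ω))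
    (H2 : ∃ a₀ : Ωˣ, (∀ v, a₀ ∈ fixU (D.Gv v) Ω) ∧ ∀ y : D.ι → Ωˣ, (∀ v, y v ∈ fixU (D.Gv v) Ω) →
      ∃ (t : ℕ) (u : Ωˣ), (∀ v, ∃ z ∈ fixU (D.Gv v) Ω, u * y v * a₀ ^ t = z ^ p) ∧
        ∃ x ∈ Z2 D.lev (1 : Representation (ZMod p) D.G (ZMod p)),
          ∀ v, muEmb ζ ∘ (x ∘ Prod.map (D.r v) (D.r v)) - cyc (χ.comp (D.r v)) (Additive.ofMul u)
            ∈ B2 (D.levv v) (uRep (D.Gv v) Ω)) :
    ∃ c₀ ∈ D.ZL2 (1 : Representation (ZMod p) D.G (ZMod p)),
      ∀ c ∈ D.ZL2 (1 : Representation (ZMod p) D.G (ZMod p)),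
        ∃ t : ZMod p, c - t • c₀ ∈ D.RL2 (1 : Representation (ZMod p) D.G (ZMod p)) := by
  classical
  obtain ⟨a₀, ha₀, H2⟩ := H2
  have hχc : ∀ v (g : D.Gv v), uAct (D.Gv v) Ω g ζ
      = ζ ^ (((1 : D.Gv v →* (ZMod p)ˣ) g : (ZMod p)ˣ) : ZMod p).val := by
    intro v g
    rw [hfix v g, MonoidHom.one_apply, Units.val_one, ZMod.val_one, pow_one]
  have hloc : ∀ v, D.loc (1 : Representation (ZMod p) D.G (ZMod p)) v
      = chiRep (1 : D.Gv v →* (ZMod p)ˣ) := by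
    intro v
    rw [chiRep_one]
    rfl
  have hfixρ : ∀ v (y : Ωˣ), y ∈ fixU (D.Gv v) Ω →
      ∀ g, uRep (D.Gv v) Ω g (Additive.ofMul y) = Additive.ofMul y := by
    intro v y hy g
    rw [uRep_apply, toMul_ofMul, hy g]
  have hc0 : ∀ v, ∃ c' ∈ Z2 (D.levv v) (chiRep (1 : D.Gv v →* (ZMod p)ˣ)),
      cyc (χ.comp (D.r v)) (Additive.ofMul a₀) - muEmb ζ ∘ c' ∈ B2 (D.levv v) (uRep (D.Gv v) Ω) := by
    intro v
    refine kummer_H2_surj (hgal v) hroot hζ (hχc v) (cyc_mem_Z2 (hχ v) (hfixρ v a₀ (ha₀ v))) ?_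
    rw [← cyc_nsmul]
    exact nsmul_cyc_mem_B2 (hχ v) (hfixρ v a₀ (ha₀ v))
  choose c₀ hc₀Z hc₀B using hc0
  refine ⟨c₀, fun v _ => by
    change c₀ v ∈ Z2 (D.levv v) (D.loc (1 : Representation (ZMod p) D.G (ZMod p)) v)
    rw [hloc v]; exact hc₀Z v, fun c hc => ?_⟩
  have hcZ : ∀ v, c v ∈ Z2 (D.levv v) (1 : Representation (ZMod p) (D.Gv v) (ZMod p)) := by
    intro v
    have : c v ∈ Z2 (D.levv v) (D.loc (1 : Representation (ZMod p) D.G (ZMod p)) v) :=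
      hc v (Set.mem_univ v)
    rw [hloc v, chiRep_one] at this
    exact this
  choose y hyfix hy using fun v => H1 v (c v) (hcZ v)
  obtain ⟨t, u, hz, x, hx, hxu⟩ := H2 y hyfix
  refine ⟨-(t : ZMod p), ?_⟩
  have hkey : ∀ v, c v + x ∘ Prod.map (D.r v) (D.r v) + (t : ZMod p) • c₀ v
      ∈ B2 (D.levv v) (D.loc (1 : Representation (ZMod p) D.G (ZMod p)) v) := by
    intro v
    have hxZ : x ∘ Prod.map (D.r v) (D.r v) ∈ Z2 (D.levv v) (chiRep (1 : D.Gv v →* (ZMod p)ˣ)) := by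
      rw [← hloc v]
      exact comp_hom_mem_Z2 (D.r v) (D.cont v) hx
    rw [hloc v]
    refine kummer_H2_inj (hgal v) hroot hζ (hχc v) ?_ ?_
    · refine Submodule.add_mem _ (Submodule.add_mem _ ?_ hxZ) (Submodule.smul_mem _ _ (hc₀Z v))
      rw [chiRep_one]
      exact hcZ v
    · obtain ⟨z, hzfix, hzeq⟩ := hz v
      have e1 : muEmb ζ ∘ (c v + x ∘ Prod.map (D.r v) (D.r v) + (t : ZMod p) • c₀ v)
          = muEmb ζ ∘ c v + muEmb ζ ∘ (x ∘ Prod.map (D.r v) (D.r v)) + t • (muEmb ζ ∘ c₀ v) := by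
        funext g
        simp only [Function.comp_apply, Pi.add_apply, Pi.smul_apply]
        rw [muEmb_add hζ, muEmb_add hζ, ← muHom_apply hζ ((t : ZMod p) • _), ← muHom_apply hζ (c₀ v g),
          ← map_nsmul]
        congr 2
        rw [nsmul_eq_mul, smul_eq_mul]
      have e2 : cyc (χ.comp (D.r v)) (Additive.ofMul u) + cyc (χ.comp (D.r v)) (Additive.ofMul (y v))
          + t • cyc (χ.comp (D.r v)) (Additive.ofMul a₀) ∈ B2 (D.levv v) (uRep (D.Gv v) Ω) := by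
        rw [← cyc_nsmul, ← cyc_add, ← cyc_add, ← ofMul_pow, ← ofMul_mul, ← ofMul_mul, hzeq, ofMul_pow]
        exact nsmul_cyc_mem_B2 (hχ v) (hfixρ v z hzfix)
      rw [e1]
      have e3 := Submodule.add_mem _ (Submodule.add_mem _ (Submodule.add_mem _ (hy v) (hxu v)) e2)
        (Submodule.neg_mem _ ((B2 (D.levv v) (uRep (D.Gv v) Ω)).smul_of_tower_mem t (hc₀B v)))
      convert e3 using 1
      rw [nsmul_sub]
      abel
  have e : c - -(t : ZMod p) • c₀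
      = (fun v => c v + x ∘ Prod.map (D.r v) (D.r v) + (t : ZMod p) • c₀ v)
        + D.res2 (k := ZMod p) (-x) := by
    funext v
    funext g
    simp only [Pi.sub_apply, Pi.add_apply, Pi.smul_apply, Pi.neg_apply, Function.comp_apply,
      Datum.res2_apply, Prod.map, neg_smul]
    ring
  rw [e]
  exact Submodule.add_mem _ (Submodule.mem_sup_left fun v _ => hkey v)
    (Submodule.mem_sup_right ⟨-x, Submodule.neg_mem _ hx, rfl⟩)

end Fermat.Agent.CFT.Codim
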