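import Fermat.Agent.CFT.Global.GC.Dict
import Fermat.Agent.CFT.Global.GN.SecondIneqFinal
import Fermat.Agent.CFT.Global.LocalIndex
import Fermat.Agent.S14.KummerExists

/-!
# CFT / T / Codim : the number field part of (I1), in `(Qb, GQ, ValuationSubring)` language.

`K` a number field, `φ : K →+* Qb`.
* `IsLocPth p φ A x` : `x` is a `p`-th power in the henselisation `Qb^(D_A ∩ Fix K)`;
* `exists_global_approx` : a family `(y_i)` of elements of the henselisations at pairwise distinct places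
  is approximated (modulo local `p`-th powers) by one element of `K`;
* `second_ineq_Qb` : GN4c `second_ineq` for `K(η)/K`.
-/

set_option autoImplicit false

namespace Fermat.Agent.CFT.Codim

open Fermat.Agent.CFT Fermat.Agent.CFT.Global Fermat.Agent.S14 Fermat.Agent.Bridge
  IsDedekindDomain NumberField

variable {p : ℕ} [Fact p.Prime] {K : Type} [Field K] [NumberField K] {φ : K →+* Qb}
  {A : ValuationSubring Qb} {ℓ : ℕ}

/-- `x` is a `p`-th power in the henselisation of `K` at `A` -/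
def IsLocPth (p : ℕ) (φ : K →+* Qb) (A : ValuationSubring Qb) (x : Qb) : Prop :=
  ∃ z : Qb, z ^ p = x ∧ ∀ σ ∈ locGroup φ A, σ z = z

omit [Fact p.Prime] [NumberField K] in
theorem IsLocPth.mul {x y : Qb} (hx : IsLocPth p φ A x) (hy : IsLocPth p φ A y) :
    IsLocPth p φ A (x * y) := by
  obtain ⟨z, hz, hzf⟩ := hx
  obtain ⟨w, hw, hwf⟩ := hy
  exact ⟨z * w, by rw [mul_pow, hz, hw], fun σ hσ => by rw [map_mul, hzf σ hσ, hwf σ hσ]⟩

omit [Fact p.Prime] [NumberField K] in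
theorem IsLocPth.div {x y : Qb} (hx : IsLocPth p φ A x) (hy : IsLocPth p φ A y) :
    IsLocPth p φ A (x / y) := by
  obtain ⟨z, hz, hzf⟩ := hx
  obtain ⟨w, hw, hwf⟩ := hy
  exact ⟨z / w, by rw [div_pow, hz, hw], fun σ hσ => by rw [map_div₀, hzf σ hσ, hwf σ hσ]⟩

theorem exists_div_isLocPth (hℓ : ℓ.Prime) (hA : A.LiesOverPrime ℓ) {ζ : Qb}
    (hζ : IsPrimitiveRoot ζ p) {y : Qb} (hy0 : y ≠ 0) (hy : ∀ σ ∈ locGroup φ A, σ y = y) :
    ∃ c : K, c ≠ 0 ∧ IsLocPth p φ A (y / φ c) := by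
  have hp : p.Prime := Fact.out
  have hp0 : (p : K) ≠ 0 := by exact_mod_cast hp.ne_zero
  have hℓ0 : (ℓ : K) ≠ 0 := by exact_mod_cast hℓ.ne_zero
  have hb : ((p : K) ^ 2 * (ℓ : K)) ≠ 0 := mul_ne_zero (pow_ne_zero _ hp0) hℓ0
  obtain ⟨c, hc0, -, h2⟩ := exists_close_of_fixed' (φ := φ) hℓ hA hy0 hy hb
  refine ⟨c, hc0, ?_⟩
  have hℓ1 : A.valuation (ℓ : Qb) < 1 := hA
  have hp0' : A.valuation (p : Qb) ≠ 0 :=
    (A.valuation.ne_zero_iff).mpr (by exact_mod_cast hp.ne_zero)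
  have h3 : A.valuation (y / φ c - 1) < A.valuation (ζ - 1) ^ p := by
    refine lt_of_le_of_lt h2 ?_
    rw [map_mul, map_pow, map_natCast, map_natCast, map_mul, map_pow]
    calc A.valuation (p : Qb) ^ 2 * A.valuation (ℓ : Qb) < A.valuation (p : Qb) ^ 2 * 1 :=
          mul_lt_mul_of_pos_left hℓ1 (zero_lt_iff.mpr (pow_ne_zero _ hp0'))
      _ ≤ A.valuation (ζ - 1) ^ p := by rw [mul_one]; exact valuation_natCast_sq_le hp hζ
  obtain ⟨z, hz, -, hfix⟩ := exists_root_fixed hp hζ h3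
  exact ⟨z, hz, fun σ hσ => hfix σ hσ.1 (by rw [map_div₀, hy σ hσ, hσ.2 c])⟩

theorem isLocPth_of_locPow (hℓ : ℓ.Prime) (hA : A.LiesOverPrime ℓ) {ζK : K}
    (hζK : IsPrimitiveRoot ζK p) {v : Pl K} (hv : v.asIdeal = primeBelow φ A) {x : K} (hx : x ≠ 0)
    (h : LocPow p v (p * dz ζK v + 1) x) : IsLocPth p φ A (φ x) :=
  (exists_root_fixed_iff hℓ hA hv Fact.out hx).mpr (fun n => locPow_all hζK v h n)

theorem exists_global_approx {ζK : K} (hζK : IsPrimitiveRoot ζK p) {ι : Type} [Fintype ι]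
    (A : ι → ValuationSubring Qb) (q : ι → ℕ) (hq : ∀ i, (q i).Prime)
    (hA : ∀ i, (A i).LiesOverPrime (q i))
    (hinj : ∀ i j, primeBelow φ (A i) = primeBelow φ (A j) → i = j)
    (y : ι → Qb) (hy0 : ∀ i, y i ≠ 0) (hy : ∀ i, ∀ σ ∈ locGroup φ (A i), σ (y i) = y i) :
    ∃ a : K, a ≠ 0 ∧ ∀ i, IsLocPth p φ (A i) (y i / φ a) := by
  classical
  have hζ : IsPrimitiveRoot (φ ζK) p := hζK.map_of_injective φ.injective
  choose c hc0 hc using fun i => exists_div_isLocPth (φ := φ) (hq i) (hA i) hζ (hy0 i) (hy i)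
  let v : ι → Pl K := fun i => placeBelow φ (hq i) (A i) (hA i)
  have hv : ∀ i, (v i).asIdeal = primeBelow φ (A i) := fun i => rfl
  have hvinj : Function.Injective v := fun i j h => hinj i j (by rw [← hv i, ← hv j, h])
  let a' : Pl K → K := fun w => if h : ∃ i, v i = w then c h.choose else 1
  have ha' : ∀ i, a' (v i) = c i := by
    intro i
    have h : ∃ j, v j = v i := ⟨i, rfl⟩
    have : a' (v i) = c h.choose := dif_pos h
    rw [this, hvinj h.choose_spec]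
  let n : ℕ := ∑ i, (p * dz ζK (v i) + 1)
  obtain ⟨x, hx0, hx⟩ := exists_approx (Finset.univ.image v) a' (by
    intro w hw
    obtain ⟨i, -, rfl⟩ := Finset.mem_image.1 hw
    rw [ha']
    exact hc0 i) n
  refine ⟨x, hx0, fun i => ?_⟩
  have h1 : LocPow p (v i) n (x / c i) := by
    refine ⟨1, one_ne_zero, ?_⟩
    have := hx (v i) (Finset.mem_image_of_mem v (Finset.mem_univ i))
    rw [ha'] at this
    rwa [one_pow, div_one]
  have h2 : LocPow p (v i) (p * dz ζK (v i) + 1) (x / c i) :=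
    h1.mono (Finset.single_le_sum (f := fun i => p * dz ζK (v i) + 1) (fun _ _ => Nat.zero_le _)
      (Finset.mem_univ i))
  have h3 := isLocPth_of_locPow (φ := φ) (hq i) (hA i) hζK (hv i) (div_ne_zero hx0 (hc0 i)) h2
  have h4 := (hc i).div h3
  have e : y i / φ (c i) / φ (x / c i) = y i / φ x := by
    have e1 : φ (c i) ≠ 0 := (map_ne_zero φ).mpr (hc0 i)
    have e2 : φ x ≠ 0 := (map_ne_zero φ).mpr hx0
    rw [map_div₀]
    field_simp
  rwa [e] at h4

open Classical in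
/-- the places of `K` above `S` -/
noncomputable def plS (K : Type) [Field K] [NumberField K] (S : Finset Nat.Primes) : Finset (Pl K) :=
  S.biUnion fun q => (finite_above (F := K) (q : ℕ) q.2.ne_zero).toFinset

theorem mem_plS {S : Finset Nat.Primes} {v : Pl K} :
    v ∈ plS K S ↔ ∃ q ∈ S, Above ((q : Nat.Primes) : ℕ) v := by
  simp [plS]

theorem placeBelow_mem_plS_iff {S : Finset Nat.Primes} {q : Nat.Primes}
    (hA : A.LiesOverPrime (q : ℕ)) : placeBelow φ q.2 A hA ∈ plS K S ↔ q ∈ S := by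
  have h0 : Above (q : ℕ) (placeBelow φ q.2 A hA) := natCast_mem_primeBelow φ hA
  rw [mem_plS]
  constructor
  · rintro ⟨q', hq', h⟩
    have : (q' : ℕ) = q := above_unique q'.2 q.2 h h0
    rwa [← Subtype.ext this]
  · intro h
    exact ⟨q, h, h0⟩

omit [NumberField K] in
theorem exists_extension_hom {M : Type} [Field M] [Algebra K M] [FiniteDimensional K M]
    (φ : K →+* Qb) : ∃ ψ : M →+* Qb, ∀ x : K, ψ (algebraMap K M x) = φ x := by
  let _ : Algebra K Qb := φ.toAlgebra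
  have : Algebra.IsAlgebraic K M := Algebra.IsAlgebraic.of_finite K M
  let ψ' : M →ₐ[K] Qb := IsAlgClosed.lift
  exact ⟨ψ'.toRingHom, ψ'.commutes⟩

/-- **the second inequality for `K(η)/K` in `Qb`-language** -/
theorem second_ineq_Qb (hp2 : p ≠ 2) (S : Finset Nat.Primes) (hpS : ExtCitation.pPrime p ∈ S)
    (hφS : ∀ x, φ x ∈ QS S) {ζ η : Qb} (hζ : IsPrimitiveRoot ζ p) (hζK : ∀ s ∈ fixer φ, s ζ = ζ)
    (hηp : ∀ s ∈ fixer φ, s (η ^ p) = η ^ p) (hηn : ∃ s ∈ fixer φ, s η ≠ η)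
    (hηu : ∃ m : ℕ, m ≠ 0 ∧ η ^ m = 1) :
    ∃ a₀ : K, a₀ ≠ 0 ∧ ∀ a : K, a ≠ 0 → ∃ (t : ℕ) (u : K), u ≠ 0 ∧
      (∀ q : Nat.Primes, q ∈ S → ∀ A : ValuationSubring Qb, A.LiesOverPrime (q : ℕ) →
        IsLocPth p φ A (φ (u * a * a₀ ^ t))) ∧
      (∀ q : Nat.Primes, q ∉ S → ∀ A : ValuationSubring Qb, A.LiesOverPrime (q : ℕ) →
        (∃ s ∈ locGroup φ A, s η ≠ η) → (p : ℤ) ∣ ordA A q (φ u)) := by
  classical
  have hp : p.Prime := Fact.out
  obtain ⟨ζK, hζK'⟩ := exists_of_fixed φ hζK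
  obtain ⟨y, hy⟩ := exists_of_fixed φ hηp
  obtain ⟨m, hm0, hm⟩ := hηu
  have hη0 : η ≠ 0 := by
    rintro rfl
    rw [zero_pow hm0] at hm
    exact zero_ne_one hm
  have hprim : IsPrimitiveRoot ζK p := by
    rw [← hζK'] at hζ
    exact hζ.of_map_of_injective φ.injective
  -- a `p`-th root of `η ^ p` is `η` times a power of `ζ`
  have hroot : ∀ b : Qb, b ^ p = η ^ p → ∃ j : ℕ, b = ζ ^ j * η := by
    intro b hb
    have h1 : (b / η) ^ p = 1 := by rw [div_pow, hb, div_self (pow_ne_zero _ hη0)]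
    have : NeZero p := ⟨hp.ne_zero⟩
    obtain ⟨j, -, hj⟩ := hζ.eq_pow_of_pow_eq_one h1
    exact ⟨j, by rw [hj, div_mul_cancel₀ _ hη0]⟩
  have hmove : ∀ (b : Qb), b ^ p = η ^ p → ∀ s ∈ fixer φ, s b = b → s η = η := by
    intro b hb s hs hsb
    obtain ⟨j, rfl⟩ := hroot b hb
    rw [map_mul, map_pow, hζK s hs] at hsb
    exact mul_left_cancel₀ (pow_ne_zero _ (hζ.ne_zero hp.ne_zero)) hsb
  have hyp : ¬ IsPPow p y := by
    rintro ⟨c, hc⟩
    obtain ⟨s, hs, hsη⟩ := hηn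
    exact hsη (hmove (φ c) (by rw [← map_pow, hc, hy]) s hs (hs c))
  obtain ⟨M, _, _, _, B, τ, hK⟩ := exists_isKummer hprim hyp
  have := hK.finiteDimensional
  have := hK.isGalois
  obtain ⟨ψ, hψ⟩ := exists_extension_hom (M := M) φ
  have hψB : ψ B ^ p = η ^ p := by rw [← map_pow, hK.B_pow, hψ, hy]
  have hy0 : y ≠ 0 := hK.y_ne
  have hyS : IsSUnit (plS K S) y := by
    refine ⟨hy0, fun v _ => ?_⟩
    have h1 : y ^ m = 1 := by
      apply φ.injective
      rw [map_pow, hy, ← pow_mul, mul_comm, pow_mul, hm, one_pow, map_one]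
    have h2 : (m : ℤ) * ord v y = 0 := by
      rw [← ord_pow, h1, ord_one]
    rcases mul_eq_zero.1 h2 with h | h
    · exact absurd (by exact_mod_cast h) hm0
    · exact h
  have hSp : ∀ v : Pl K, Above p v → v ∈ plS K S := fun v hv => mem_plS.2 ⟨_, hpS, hv⟩
  let N : ℕ := ∑ v ∈ plS K S, (p * dz ζK v + 1)
  obtain ⟨a₀, ha₀, H⟩ := second_ineq hK hp2 (plS K S) hSp hyS N
  refine ⟨a₀, ha₀, fun a ha => ?_⟩
  obtain ⟨t, u, hu0, h1, h2⟩ := H a ha
  refine ⟨t, u, hu0, fun q hq A hA => ?_, fun q hq A hA hs => ?_⟩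
  · have hv : placeBelow φ q.2 A hA ∈ plS K S := (placeBelow_mem_plS_iff hA).2 hq
    refine isLocPth_of_locPow q.2 hA hprim (v := placeBelow φ q.2 A hA) rfl
      (mul_ne_zero (mul_ne_zero hu0 ha) (pow_ne_zero _ ha₀)) ((h1 _ hv).mono ?_)
    exact Finset.single_le_sum (f := fun v => p * dz ζK v + 1) (fun _ _ => Nat.zero_le _) hv
  · have hv : placeBelow φ q.2 A hA ∉ plS K S := fun h => hq ((placeBelow_mem_plS_iff hA).1 h)
    have hns : NonSplit M (placeBelow φ q.2 A hA) := by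
      rw [Dict.nonSplit_iff_exists (by rw [hK.finrank_eq]; exact hp) hψ q.2 hA rfl]
      obtain ⟨s, hs, hsη⟩ := hs
      exact ⟨s, hs, fun h => hsη (hmove (ψ B) hψB s hs.2 (h B))⟩
    rw [← Dict.ord_eq_ordA φ hφS hq hA (v := placeBelow φ q.2 A hA) rfl u]
    exact h2 _ hv hns

end Fermat.Agent.CFT.Codim
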